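/-
S28 [Reduction], DECLARED BACKUP (helper59 roster #1072), LEAF [Chart] (helper17).

Every element of an Igusa chart algebra `chartAlg N ℓ S` (`S ⊆ {j, j⁻¹}`), viewed as a Laurent
series over `ℚ`, lies in the Gauss valuation ring `ocal ℓ` — given (in hypothesis form) that
`ocal ℓ` is integrally closed in `Frac ℤ((q))` (`h9`, leaf [Frac]) and that the full modular
function field lies in `Frac ℤ((q))` (`hF`, leaf [Field]).
-/
import Mathlib
import Fermat.Agent.S28.ReductionAlt.Defs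
import Fermat.Prelude.Def_ModularCurve_IgusaScheme
import Fermat.Prelude.Def_ModularCurve_X0ModL

set_option autoImplicit false

noncomputable section

namespace Fermat.Agent.S28.ReductionAlt

open ModularCurve ModularCurve.IgusaScheme

theorem chart_iotaQ_jqModC : iotaQ (jqModC ℤ) = jq := by
  rw [← jqModC_rat]
  exact coeffMap_jqModC _

theorem chart_rhoL_jqModC (ℓ : ℕ) : rhoL ℓ (jqModC ℤ) = jqModC (ZMod ℓ) :=
  coeffMap_jqModC _

theorem chart_jq_mem_ocal (ℓ : ℕ) [Fact ℓ.Prime] : jq ∈ ocal ℓ := by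
  rw [← chart_iotaQ_jqModC]
  exact iotaQ_mem_ocal _

theorem chart_jq_inv_mem_ocal (ℓ : ℕ) [Fact ℓ.Prime] : jq⁻¹ ∈ ocal ℓ := by
  refine ⟨1, jqModC ℤ, ?_, ?_⟩
  · rw [chart_rhoL_jqModC]
    exact jqModC_ne_zero_of_nontrivial _
  · rw [chart_iotaQ_jqModC, map_one, inv_mul_cancel₀ jq_ne_zero]

/-- Constants with denominator prime to `ℓ` lie in `ocal ℓ`. -/
theorem chart_const_mem_ocal (ℓ : ℕ) [Fact ℓ.Prime] (a : ℚ) (ha : a.den.Coprime ℓ) :
    algebraMap ℚ (LaurentSeries ℚ) a ∈ ocal ℓ := by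
  refine ⟨HahnSeries.single 0 a.num, HahnSeries.single 0 (a.den : ℤ), ?_, ?_⟩
  · rw [coeffMap_single]
    intro h
    have h0 : ((Int.castRingHom (ZMod ℓ)) (a.den : ℤ)) = 0 := by
      have := congrArg (fun z : LaurentSeries (ZMod ℓ) => z.coeff 0) h
      simpa using this
    have h1 : ((a.den : ℕ) : ZMod ℓ) = 0 := by simpa using h0
    rw [ZMod.natCast_eq_zero_iff] at h1
    have h2 : ℓ ∣ Nat.gcd a.den ℓ := Nat.dvd_gcd h1 dvd_rfl
    rw [Nat.Coprime] at ha
    rw [ha] at h2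
    exact absurd (Nat.le_of_dvd one_pos h2) (not_le.mpr (Fact.out : ℓ.Prime).one_lt)
  · rw [coeffMap_single, coeffMap_single, algebraMap_laurentSeries_eq_single,
      HahnSeries.single_mul_single, add_zero]
    congr 1
    simp [Rat.mul_den_eq_num]

/-- The coercion of an element of `ℤ_(ℓ)[S]`, `S ⊆ {j, j⁻¹}`, lies in `ocal ℓ`. -/
theorem chart_coe_mem_ocal_of_mem_adjoin (N : ℕ) [NeZero N] (ℓ : ℕ) [Fact ℓ.Prime]
    (S : Set ↥(modularFunctionFieldFull N))
    (hS : ∀ s ∈ S, s = jFull N ∨ s = (jFull N)⁻¹)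
    {x : ↥(modularFunctionFieldFull N)}
    (hx : x ∈ Algebra.adjoin ↥(GaloisRep.ratLocalizedAt ℓ) S) :
    ((x : ↥(modularFunctionFieldFull N)) : LaurentSeries ℚ) ∈ ocal ℓ := by
  induction hx using Algebra.adjoin_induction with
  | mem y hy =>
    rcases hS y hy with rfl | rfl
    · exact chart_jq_mem_ocal ℓ
    · show ((jFull N : ↥(modularFunctionFieldFull N)) : LaurentSeries ℚ)⁻¹ ∈ ocal ℓ
      exact chart_jq_inv_mem_ocal ℓ
  | algebraMap a =>
    have h : ((algebraMap ↥(GaloisRep.ratLocalizedAt ℓ) ↥(modularFunctionFieldFull N) a :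
        ↥(modularFunctionFieldFull N)) : LaurentSeries ℚ)
        = algebraMap ℚ (LaurentSeries ℚ) (a : ℚ) := by
      have h1 : (algebraMap ↥(GaloisRep.ratLocalizedAt ℓ) ↥(modularFunctionFieldFull N) a :
          ↥(modularFunctionFieldFull N))
          = algebraMap ℚ ↥(modularFunctionFieldFull N) (a : ℚ) := rfl
      rw [h1, eq_ratCast (algebraMap ℚ ↥(modularFunctionFieldFull N)) (a : ℚ),
        eq_ratCast (algebraMap ℚ (LaurentSeries ℚ)) (a : ℚ)]
      exact SubfieldClass.coe_ratCast _ _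
    rw [h]
    exact chart_const_mem_ocal ℓ (a : ℚ) a.2
  | add y z _ _ hy hz => exact add_mem hy hz
  | mul y z _ _ hy hz => exact mul_mem hy hz

theorem coe_mem_ocal_of_mem_chartAlg (N : ℕ) [NeZero N] (ℓ : ℕ) [Fact ℓ.Prime]
    (h9 : ∀ y : LaurentSeries ℚ, (∃ u v : LaurentSeries ℤ, v ≠ 0 ∧ y * iotaQ v = iotaQ u) →
      IsIntegral (ocal ℓ) y → y ∈ ocal ℓ)
    (hF : ∀ y : LaurentSeries ℚ, y ∈ modularFunctionFieldFull N →
      ∃ u v : LaurentSeries ℤ, v ≠ 0 ∧ y * iotaQ v = iotaQ u)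
    (S : Set ↥(modularFunctionFieldFull N))
    (hS : S = {jFull N} ∨ S = {(jFull N)⁻¹} ∨ S = {jFull N, (jFull N)⁻¹})
    {x : ↥(modularFunctionFieldFull N)} (hx : x ∈ chartAlg N ℓ S) :
    ((x : ↥(modularFunctionFieldFull N)) : LaurentSeries ℚ) ∈ ocal ℓ := by
  have hS' : ∀ s ∈ S, s = jFull N ∨ s = (jFull N)⁻¹ := by
    intro s hs
    rcases hS with rfl | rfl | rfl
    · exact Or.inl hs
    · exact Or.inr hs
    · exact hs
  refine h9 _ (hF _ x.2) ?_
  have hint : IsIntegral (Algebra.adjoin ↥(GaloisRep.ratLocalizedAt ℓ) S) x :=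
    (mem_chartAlg_iff N ℓ).mp hx
  let ψ : ↥(modularFunctionFieldFull N) →+* LaurentSeries ℚ :=
    { toFun := fun y => (y : LaurentSeries ℚ)
      map_one' := rfl
      map_mul' := fun _ _ => rfl
      map_zero' := rfl
      map_add' := fun _ _ => rfl }
  let φ : ↥(Algebra.adjoin ↥(GaloisRep.ratLocalizedAt ℓ) S) →+* ↥(ocal ℓ) :=
    { toFun := fun y => ⟨((y : ↥(modularFunctionFieldFull N)) : LaurentSeries ℚ),
        chart_coe_mem_ocal_of_mem_adjoin N ℓ S hS' y.2⟩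
      map_one' := rfl
      map_mul' := fun _ _ => rfl
      map_zero' := rfl
      map_add' := fun _ _ => rfl }
  have hcomp : (algebraMap ↥(ocal ℓ) (LaurentSeries ℚ)).comp φ
      = ψ.comp (algebraMap ↥(Algebra.adjoin ↥(GaloisRep.ratLocalizedAt ℓ) S)
          ↥(modularFunctionFieldFull N)) := by
    ext y
    rfl
  exact hint.map_of_comp_eq φ ψ hcomp

end Fermat.Agent.S28.ReductionAlt
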