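/-
S28 [Reduction], DECLARED BACKUP (helper59): definitions.

`ocal ℓ` is the ring of those `y ∈ ℚ((q))` that can be written `y = ι u / ι v` with
`u v ∈ ℤ((q))` and `v` nonzero mod `ℓ`; `red ℓ : ocal ℓ →+* 𝔽_ℓ((q))` is the reduction
`y ↦ ū / v̄`.
-/
import Mathlib
import Fermat.Prelude.Def_ModularCurve_LaurentCoeff

set_option autoImplicit false

noncomputable section

namespace Fermat.Agent.S28.ReductionAlt

open ModularCurve

/-- `ℤ((q)) → ℚ((q))`. -/
abbrev iotaQ : LaurentSeries ℤ →+* LaurentSeries ℚ := coeffMap (Int.castRingHom ℚ)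

/-- Reduction mod `ℓ`: `ℤ((q)) → 𝔽_ℓ((q))`. -/
abbrev rhoL (ℓ : ℕ) : LaurentSeries ℤ →+* LaurentSeries (ZMod ℓ) :=
  coeffMap (Int.castRingHom (ZMod ℓ))

theorem iotaQ_injective : Function.Injective iotaQ := by
  intro x y h
  ext n
  have := congrArg (fun z : LaurentSeries ℚ => z.coeff n) h
  simpa using this

theorem iotaQ_eq_zero_iff {u : LaurentSeries ℤ} : iotaQ u = 0 ↔ u = 0 :=
  map_eq_zero_iff iotaQ iotaQ_injective

variable (ℓ : ℕ) [Fact ℓ.Prime]

theorem ne_zero_of_rhoL_ne_zero {v : LaurentSeries ℤ} (hv : rhoL ℓ v ≠ 0) : v ≠ 0 := by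
  rintro rfl
  exact hv (map_zero _)

theorem iotaQ_ne_zero_of_rhoL_ne_zero {v : LaurentSeries ℤ} (hv : rhoL ℓ v ≠ 0) : iotaQ v ≠ 0 :=
  fun h => ne_zero_of_rhoL_ne_zero ℓ hv (iotaQ_eq_zero_iff.mp h)

/-- The Gauss valuation ring of `Frac ℤ((q))` at `ℓ`, inside `ℚ((q))`. -/
def ocal : Subring (LaurentSeries ℚ) where
  carrier := {y | ∃ u v : LaurentSeries ℤ, rhoL ℓ v ≠ 0 ∧ y * iotaQ v = iotaQ u}
  mul_mem' := by
    rintro y y' ⟨u, v, hv, h⟩ ⟨u', v', hv', h'⟩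
    refine ⟨u * u', v * v', ?_, ?_⟩
    · rw [map_mul]; exact mul_ne_zero hv hv'
    · rw [map_mul, map_mul, ← h, ← h']; ring
  one_mem' := ⟨1, 1, by rw [map_one]; exact one_ne_zero, by rw [map_one, mul_one]⟩
  add_mem' := by
    rintro y y' ⟨u, v, hv, h⟩ ⟨u', v', hv', h'⟩
    refine ⟨u * v' + u' * v, v * v', ?_, ?_⟩
    · rw [map_mul]; exact mul_ne_zero hv hv'
    · rw [map_mul, map_add, map_mul, map_mul, ← h, ← h']; ring
  zero_mem' := ⟨0, 1, by rw [map_one]; exact one_ne_zero, by rw [map_zero, zero_mul]⟩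
  neg_mem' := by
    rintro y ⟨u, v, hv, h⟩
    exact ⟨-u, v, hv, by rw [map_neg, ← h]; ring⟩

variable {ℓ}

theorem mem_ocal_iff {y : LaurentSeries ℚ} :
    y ∈ ocal ℓ ↔ ∃ u v : LaurentSeries ℤ, rhoL ℓ v ≠ 0 ∧ y * iotaQ v = iotaQ u := Iff.rfl

theorem iotaQ_mem_ocal (u : LaurentSeries ℤ) : iotaQ u ∈ ocal ℓ :=
  ⟨u, 1, by rw [map_one]; exact one_ne_zero, by rw [map_one, mul_one]⟩

/-- the underlying function of `red` -/
def redFun (y : ocal ℓ) : LaurentSeries (ZMod ℓ) :=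
  rhoL ℓ y.2.choose / rhoL ℓ y.2.choose_spec.choose

theorem redFun_eq {y : ocal ℓ} {u v : LaurentSeries ℤ} (hv : rhoL ℓ v ≠ 0)
    (h : (y : LaurentSeries ℚ) * iotaQ v = iotaQ u) : redFun y = rhoL ℓ u / rhoL ℓ v := by
  obtain ⟨hv', h'⟩ := y.2.choose_spec.choose_spec
  set u' := y.2.choose
  set v' := y.2.choose_spec.choose
  have key : u' * v = u * v' := by
    apply iotaQ_injective
    rw [map_mul, map_mul, ← h, ← h']; ring
  have key' := congrArg (rhoL ℓ) key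
  rw [map_mul, map_mul] at key'
  rw [redFun, div_eq_div_iff hv' hv, key']

variable (ℓ) in
/-- Reduction mod `ℓ` on the Gauss valuation ring: `ι u / ι v ↦ ū / v̄`. -/
def red : ocal ℓ →+* LaurentSeries (ZMod ℓ) where
  toFun := redFun
  map_one' := by
    rw [redFun_eq (u := 1) (v := 1) (by rw [map_one]; exact one_ne_zero)
      (by rw [map_one, mul_one]; rfl), map_one, div_one]
  map_mul' := by
    rintro ⟨y, u, v, hv, h⟩ ⟨y', u', v', hv', h'⟩
    rw [redFun_eq (y := ⟨y, u, v, hv, h⟩) hv h, redFun_eq (y := ⟨y', u', v', hv', h'⟩) hv' h',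
      redFun_eq (u := u * u') (v := v * v') (by rw [map_mul]; exact mul_ne_zero hv hv')
        (by
          show y * y' * iotaQ (v * v') = iotaQ (u * u')
          rw [map_mul, map_mul, ← h, ← h']; ring),
      map_mul, map_mul, div_mul_div_comm]
  map_zero' := by
    rw [redFun_eq (u := 0) (v := 1) (by rw [map_one]; exact one_ne_zero)
      (by rw [map_zero, map_one, mul_one]; rfl), map_zero, zero_div]
  map_add' := by
    rintro ⟨y, u, v, hv, h⟩ ⟨y', u', v', hv', h'⟩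
    rw [redFun_eq (y := ⟨y, u, v, hv, h⟩) hv h, redFun_eq (y := ⟨y', u', v', hv', h'⟩) hv' h',
      redFun_eq (u := u * v' + u' * v) (v := v * v') (by rw [map_mul]; exact mul_ne_zero hv hv')
        (by
          show (y + y') * iotaQ (v * v') = iotaQ (u * v' + u' * v)
          rw [map_mul, map_add, map_mul, map_mul, ← h, ← h']; ring),
      map_add, map_mul, map_mul, map_mul, div_add_div _ _ hv hv']
    congr 1
    ring

theorem red_eq_div {y : ocal ℓ} {u v : LaurentSeries ℤ} (hv : rhoL ℓ v ≠ 0)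
    (h : (y : LaurentSeries ℚ) * iotaQ v = iotaQ u) : red ℓ y = rhoL ℓ u / rhoL ℓ v :=
  redFun_eq hv h

theorem red_mul_rhoL {y : ocal ℓ} {u v : LaurentSeries ℤ} (hv : rhoL ℓ v ≠ 0)
    (h : (y : LaurentSeries ℚ) * iotaQ v = iotaQ u) : red ℓ y * rhoL ℓ v = rhoL ℓ u := by
  rw [red_eq_div hv h, div_mul_cancel₀ _ hv]

theorem red_iotaQ (u : LaurentSeries ℤ) : red ℓ ⟨iotaQ u, iotaQ_mem_ocal u⟩ = rhoL ℓ u := by
  rw [red_eq_div (u := u) (v := 1) (by rw [map_one]; exact one_ne_zero)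
    (by rw [map_one, mul_one]), map_one, div_one]

end Fermat.Agent.S28.ReductionAlt
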