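/-
S28 [Reduction], DECLARED BACKUP, leaf [Field] (helper62).

* `isFrac_of_mem_full`: every element of the full modular function field `F_N ⊆ ℚ((q))` is a
  quotient `ι u / ι v` with `u v ∈ ℤ((q))`, `v ≠ 0`.
* `iotaQ_mem_full`: the image of `ℤ[j(q^d) : d ∣ N]` lies in `F_N`.
* `exists_poly_of_mem_adjoin_jq`: `ℚ(j)` consists of quotients `P(j)/Q(j)` with `P Q ∈ ℤ[X]`,
  `Q ≠ 0`.
-/
import Mathlib
import Fermat.Agent.S28.ReductionAlt.Defs
import Fermat.Agent.S28.ReductionDefs

set_option autoImplicit false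

noncomputable section

namespace Fermat.Agent.S28.ReductionAlt

open ModularCurve

/-- The subfield of `ℚ((q))` of quotients `ι u / ι v`, `u v ∈ ℤ((q))`, `v ≠ 0`. -/
def field_fracSubfield : Subfield (LaurentSeries ℚ) where
  carrier := {y | ∃ u v : LaurentSeries ℤ, v ≠ 0 ∧ y * iotaQ v = iotaQ u}
  mul_mem' := by
    rintro y y' ⟨u, v, hv, h⟩ ⟨u', v', hv', h'⟩
    refine ⟨u * u', v * v', ?_, ?_⟩
    · intro h0
      have h1 : iotaQ v * iotaQ v' = 0 := by rw [← map_mul, h0, map_zero]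
      rcases mul_eq_zero.mp h1 with h2 | h2
      · exact hv (iotaQ_eq_zero_iff.mp h2)
      · exact hv' (iotaQ_eq_zero_iff.mp h2)
    · rw [map_mul, map_mul, ← h, ← h']; ring
  one_mem' := ⟨1, 1, one_ne_zero, by rw [map_one, mul_one]⟩
  add_mem' := by
    rintro y y' ⟨u, v, hv, h⟩ ⟨u', v', hv', h'⟩
    refine ⟨u * v' + u' * v, v * v', ?_, ?_⟩
    · intro h0
      have h1 : iotaQ v * iotaQ v' = 0 := by rw [← map_mul, h0, map_zero]
      rcases mul_eq_zero.mp h1 with h2 | h2
      · exact hv (iotaQ_eq_zero_iff.mp h2)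
      · exact hv' (iotaQ_eq_zero_iff.mp h2)
    · rw [map_mul, map_add, map_mul, map_mul, ← h, ← h']; ring
  zero_mem' := ⟨0, 1, one_ne_zero, by rw [map_zero, zero_mul]⟩
  neg_mem' := by
    rintro y ⟨u, v, hv, h⟩
    exact ⟨-u, v, hv, by rw [map_neg, ← h]; ring⟩
  inv_mem' := by
    rintro y ⟨u, v, hv, h⟩
    by_cases hy : y = 0
    · subst hy
      exact ⟨0, 1, one_ne_zero, by rw [inv_zero, map_zero, zero_mul]⟩
    · refine ⟨v, u, ?_, ?_⟩
      · rintro rfl
        rw [map_zero] at h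
        rcases mul_eq_zero.mp h with h2 | h2
        · exact hy h2
        · exact hv (iotaQ_eq_zero_iff.mp h2)
      · rw [← h, ← mul_assoc, inv_mul_cancel₀ hy, one_mul]

theorem field_mem_fracSubfield_iff {y : LaurentSeries ℚ} :
    y ∈ field_fracSubfield ↔ ∃ u v : LaurentSeries ℤ, v ≠ 0 ∧ y * iotaQ v = iotaQ u := Iff.rfl

theorem field_iotaQ_mem_fracSubfield (u : LaurentSeries ℤ) : iotaQ u ∈ field_fracSubfield :=
  ⟨u, 1, one_ne_zero, by rw [map_one, mul_one]⟩

theorem field_algebraMap_mem_fracSubfield (c : ℚ) :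
    algebraMap ℚ (LaurentSeries ℚ) c ∈ field_fracSubfield := by
  refine ⟨HahnSeries.single 0 (c.num : ℤ), HahnSeries.single 0 (c.den : ℤ), ?_, ?_⟩
  · exact HahnSeries.single_ne_zero (by exact_mod_cast c.den_nz)
  · rw [algebraMap_apply_eq_single]
    show HahnSeries.single 0 c * coeffMap (Int.castRingHom ℚ) (HahnSeries.single 0 (c.den : ℤ))
      = coeffMap (Int.castRingHom ℚ) (HahnSeries.single 0 c.num)
    rw [coeffMap_single, coeffMap_single, HahnSeries.single_mul_single, add_zero]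
    congr 1
    simp only [eq_intCast, Int.cast_natCast]
    exact Rat.mul_den_eq_num c

/-- `field_fracSubfield` as an intermediate field of `ℚ((q))/ℚ`. -/
def field_fracField : IntermediateField ℚ (LaurentSeries ℚ) :=
  field_fracSubfield.toIntermediateField field_algebraMap_mem_fracSubfield

theorem field_mem_fracField_iff {y : LaurentSeries ℚ} :
    y ∈ field_fracField ↔ ∃ u v : LaurentSeries ℤ, v ≠ 0 ∧ y * iotaQ v = iotaQ u := Iff.rfl

/-- The generators `j(q^d)` of `F_N` come from `ℤ((q))`. -/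
theorem field_iotaQ_qExpand_jqModC (d : ℕ) [NeZero d] :
    iotaQ (qExpand ℤ d (jqModC ℤ)) = qExpand ℚ d jq := by
  show coeffMap (Int.castRingHom ℚ) (qExpand ℤ d (jqModC ℤ)) = qExpand ℚ d jq
  rw [coeffMap_qExpand, coeffMap_jqModC, jqModC_rat]

theorem field_full_le_fracField (N : ℕ) [NeZero N] :
    modularFunctionFieldFull N ≤ field_fracField := by
  rw [modularFunctionFieldFull, IntermediateField.adjoin_le_iff]
  rintro x ⟨d, hne, _, rfl⟩
  have := hne
  rw [← field_iotaQ_qExpand_jqModC d]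
  exact field_iotaQ_mem_fracSubfield _

/-- `F_N ⊆ Frac(ι ℤ((q)))`. -/
theorem isFrac_of_mem_full (N : ℕ) [NeZero N] {y : LaurentSeries ℚ}
    (hy : y ∈ modularFunctionFieldFull N) :
    ∃ u v : LaurentSeries ℤ, v ≠ 0 ∧ y * iotaQ v = iotaQ u :=
  field_mem_fracField_iff.mp (field_full_le_fracField N hy)

/-- `ι (ℤ[j(q^d) : d ∣ N]) ⊆ F_N`. -/
theorem iotaQ_mem_full (N : ℕ) [NeZero N] {X : LaurentSeries ℤ} (hX : X ∈ Reduction.jRing N) :
    iotaQ X ∈ modularFunctionFieldFull N := by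
  unfold Reduction.jRing at hX
  induction hX using Subring.closure_induction with
  | mem x hx =>
      obtain ⟨d, hne, hd, rfl⟩ := hx
      have := hne
      rw [field_iotaQ_qExpand_jqModC d]
      exact jqd_mem_full N hd
  | zero => rw [map_zero]; exact zero_mem _
  | one => rw [map_one]; exact one_mem _
  | add x y _ _ hx hy => rw [map_add]; exact add_mem hx hy
  | neg x _ hx => rw [map_neg]; exact neg_mem hx
  | mul x y _ _ hx hy => rw [map_mul]; exact mul_mem hx hy

/-- The subfield of `ℚ((q))` of quotients `P(j)/Q(j)`, `P Q ∈ ℤ[X]`, `Q ≠ 0`. -/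
def field_polySubfield : Subfield (LaurentSeries ℚ) where
  carrier := {h | ∃ P Q : Polynomial ℤ, Q ≠ 0 ∧
    h * Polynomial.aeval jq Q = Polynomial.aeval jq P}
  mul_mem' := by
    rintro y y' ⟨P, Q, hQ, h⟩ ⟨P', Q', hQ', h'⟩
    refine ⟨P * P', Q * Q', mul_ne_zero hQ hQ', ?_⟩
    rw [map_mul, map_mul, ← h, ← h']; ring
  one_mem' := ⟨1, 1, one_ne_zero, by rw [map_one, mul_one]⟩
  add_mem' := by
    rintro y y' ⟨P, Q, hQ, h⟩ ⟨P', Q', hQ', h'⟩
    refine ⟨P * Q' + P' * Q, Q * Q', mul_ne_zero hQ hQ', ?_⟩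
    rw [map_mul, map_add, map_mul, map_mul, ← h, ← h']; ring
  zero_mem' := ⟨0, 1, one_ne_zero, by rw [map_zero, zero_mul]⟩
  neg_mem' := by
    rintro y ⟨P, Q, hQ, h⟩
    exact ⟨-P, Q, hQ, by rw [map_neg, ← h]; ring⟩
  inv_mem' := by
    rintro y ⟨P, Q, hQ, h⟩
    by_cases hP : P = 0
    · subst hP
      rw [map_zero] at h
      refine ⟨0, Q, hQ, ?_⟩
      rw [map_zero]
      rcases mul_eq_zero.mp h with h2 | h2
      · rw [h2, inv_zero, zero_mul]
      · rw [h2, mul_zero]
    · by_cases hy : y = 0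
      · subst hy
        exact ⟨0, 1, one_ne_zero, by rw [inv_zero, map_zero, zero_mul]⟩
      · exact ⟨Q, P, hP, by rw [← h, ← mul_assoc, inv_mul_cancel₀ hy, one_mul]⟩

theorem field_algebraMap_mem_polySubfield (c : ℚ) :
    algebraMap ℚ (LaurentSeries ℚ) c ∈ field_polySubfield := by
  refine ⟨Polynomial.C c.num, Polynomial.C (c.den : ℤ), ?_, ?_⟩
  · rw [Ne, Polynomial.C_eq_zero]
    exact_mod_cast c.den_nz
  · rw [Polynomial.aeval_C, Polynomial.aeval_C, eq_intCast, eq_intCast,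
      ← map_intCast (algebraMap ℚ (LaurentSeries ℚ)) (c.den : ℤ),
      ← map_intCast (algebraMap ℚ (LaurentSeries ℚ)) c.num, ← map_mul]
    congr 1
    simp only [Int.cast_natCast]
    exact Rat.mul_den_eq_num c

/-- `field_polySubfield` as an intermediate field of `ℚ((q))/ℚ`. -/
def field_polyField : IntermediateField ℚ (LaurentSeries ℚ) :=
  field_polySubfield.toIntermediateField field_algebraMap_mem_polySubfield

theorem field_mem_polyField_iff {h : LaurentSeries ℚ} :
    h ∈ field_polyField ↔ ∃ P Q : Polynomial ℤ, Q ≠ 0 ∧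
      h * Polynomial.aeval jq Q = Polynomial.aeval jq P := Iff.rfl

theorem field_jq_mem_polyField : jq ∈ field_polyField :=
  ⟨Polynomial.X, 1, one_ne_zero, by rw [map_one, mul_one, Polynomial.aeval_X]⟩

/-- `ℚ(j) = Frac ℤ[j]`: every element of `ℚ(j)` is `P(j)/Q(j)` with `P Q ∈ ℤ[X]`, `Q ≠ 0`. -/
theorem exists_poly_of_mem_adjoin_jq {h : LaurentSeries ℚ}
    (hh : h ∈ IntermediateField.adjoin ℚ {jq}) :
    ∃ P Q : Polynomial ℤ, Q ≠ 0 ∧ h * Polynomial.aeval jq Q = Polynomial.aeval jq P := by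
  have hle : IntermediateField.adjoin ℚ {jq} ≤ field_polyField := by
    rw [IntermediateField.adjoin_le_iff]
    rintro x hx
    rw [Set.mem_singleton_iff] at hx
    subst hx
    exact field_jq_mem_polyField
  exact field_mem_polyField_iff.mp (hle hh)

end Fermat.Agent.S28.ReductionAlt
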